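import Fermat.Agent.Equidistribution.Criterion
import Mathlib.MeasureTheory.Integral.IntervalIntegral.Basic
import Mathlib.Topology.Algebra.InfiniteSum.ENNReal
import Mathlib.Analysis.PSeries
import Mathlib.MeasureTheory.Constructions.Polish.Basic

/-!
# Almost everywhere vanishing of exponential means

If `∑_{m, n < N} |∫ e (φ_m - φ_n)| ≤ C N` then the means along `N = M ^ 2` tend to zero almost
everywhere, and the others follow.
-/

set_option autoImplicit false

noncomputable section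

open Finset Filter Topology MeasureTheory
open FA.ThreePrimes (eAdd norm_eAdd conj_eAdd eAdd_add)
open scoped ComplexConjugate ENNReal

namespace FA.MetricEquidist

theorem continuous_eAdd : Continuous eAdd := by
  unfold eAdd
  fun_prop

/-- The square of an exponential sum. -/
theorem norm_sum_sq (φ : ℕ → ℝ) (N : ℕ) :
    ((‖∑ n ∈ range N, eAdd (φ n)‖ ^ 2 : ℝ) : ℂ) =
      ∑ m ∈ range N, ∑ n ∈ range N, eAdd (φ m - φ n) := by
  rw [Complex.ofReal_pow, ← Complex.mul_conj', map_sum, Finset.sum_mul_sum]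
  simp only [conj_eAdd, ← eAdd_add, ← sub_eq_add_neg]

/-- The integral of the square. -/
theorem integral_sq_le {φ : ℕ → ℝ → ℝ} (hφ : ∀ n, Continuous (φ n)) (a b : ℝ) (N : ℕ) :
    ∫ x in a..b, ‖∑ n ∈ range N, eAdd (φ n x)‖ ^ 2 ≤
      ∑ m ∈ range N, ∑ n ∈ range N, ‖∫ x in a..b, eAdd (φ m x - φ n x)‖ := by
  have hc : ∀ m n, Continuous fun x => eAdd (φ m x - φ n x) := fun m n =>
    continuous_eAdd.comp ((hφ m).sub (hφ n))
  have h1 : ((∫ x in a..b, ‖∑ n ∈ range N, eAdd (φ n x)‖ ^ 2 : ℝ) : ℂ) =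
      ∑ m ∈ range N, ∑ n ∈ range N, ∫ x in a..b, eAdd (φ m x - φ n x) := by
    rw [← intervalIntegral.integral_ofReal]
    simp only [norm_sum_sq]
    rw [intervalIntegral.integral_finsetSum fun m _ =>
      (continuous_finsetSum _ fun n _ => hc m n).intervalIntegrable _ _]
    exact Finset.sum_congr rfl fun m _ =>
      intervalIntegral.integral_finsetSum fun n _ => (hc m n).intervalIntegrable _ _
  refine (le_abs_self _).trans ?_
  rw [← Real.norm_eq_abs, ← Complex.norm_real, h1]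
  exact (norm_sum_le _ _).trans (Finset.sum_le_sum fun m _ => norm_sum_le _ _)

/-- **Almost every point has vanishing means.** -/
theorem ae_tendsto_mean {φ : ℕ → ℝ → ℝ} (hφ : ∀ n, Continuous (φ n)) {a b : ℝ} (hab : a ≤ b)
    {C : ℝ} (hC : ∀ N : ℕ,
      ∑ m ∈ range N, ∑ n ∈ range N, ‖∫ x in a..b, eAdd (φ m x - φ n x)‖ ≤ C * N) :
    ∀ᵐ x ∂volume.restrict (Set.Ioc a b),
      Tendsto (fun N => Equidist.avg (range N) fun n => eAdd (φ n x)) atTop (𝓝 0) := by
  set f : ℕ → ℝ → ℝ := fun M x =>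
    ‖∑ n ∈ range ((M + 1) ^ 2), eAdd (φ n x)‖ ^ 2 / (((M : ℝ) + 1) ^ 2) ^ 2 with hf
  have hfc : ∀ M, Continuous (f M) := fun M =>
    ((continuous_finsetSum _ fun n _ => continuous_eAdd.comp (hφ n)).norm.pow 2).div_const _
  have hfn : ∀ M x, 0 ≤ f M x := fun M x => by positivity
  have hint : ∀ M : ℕ, ∫⁻ x in Set.Ioc a b, ENNReal.ofReal (f M x) ≤
      ENNReal.ofReal (C * (1 / ((M : ℝ) + 1) ^ 2)) := fun M => by
    rw [← ofReal_integral_eq_lintegral_ofReal ((hfc M).integrableOn_Ioc)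
      (Eventually.of_forall fun x => hfn M x), ← intervalIntegral.integral_of_le hab]
    refine ENNReal.ofReal_le_ofReal ?_
    simp only [hf, intervalIntegral.integral_div]
    rw [div_le_iff₀ (by positivity)]
    refine ((integral_sq_le hφ a b _).trans (hC _)).trans_eq ?_
    push_cast
    field_simp
  have hsum : Summable fun M : ℕ => C * (1 / ((M : ℝ) + 1) ^ 2) := by
    refine Summable.mul_left C ?_
    simpa using (summable_nat_add_iff 1).2 (Real.summable_one_div_nat_pow.2 one_lt_two)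
  have hC0 : 0 ≤ C := by
    have h := (Finset.sum_nonneg fun m _ => Finset.sum_nonneg fun n _ => norm_nonneg _).trans (hC 1)
    simpa using h
  have hfin : ∫⁻ x in Set.Ioc a b, ∑' M, ENNReal.ofReal (f M x) ≠ ⊤ := by
    rw [lintegral_tsum fun M => ((hfc M).measurable.ennreal_ofReal).aemeasurable]
    refine ne_top_of_le_ne_top ?_ (ENNReal.tsum_le_tsum hint)
    rw [← ENNReal.ofReal_tsum_of_nonneg (fun M => by positivity) hsum]
    exact ENNReal.ofReal_ne_top
  filter_upwards [ae_lt_top (Measurable.tsum fun M =>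
    (hfc M).measurable.ennreal_ofReal) hfin] with x hx
  have h0 := ENNReal.tendsto_atTop_zero_of_tsum_ne_top hx.ne
  have h1 : Tendsto (fun M => f M x) atTop (𝓝 0) := by
    have := (ENNReal.tendsto_toReal ENNReal.zero_ne_top).comp h0
    simpa [Function.comp_def, ENNReal.toReal_ofReal (hfn _ x)] using this
  set S : ℕ → ℂ := fun N => ∑ n ∈ range N, eAdd (φ n x) with hS
  have hsq : Tendsto (fun M : ℕ => ‖S (M ^ 2)‖ / ((M : ℝ) ^ 2)) atTop (𝓝 0) := by
    refine (tendsto_add_atTop_iff_nat 1).1 ?_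
    have h2 := h1.sqrt
    rw [Real.sqrt_zero] at h2
    refine h2.congr fun M => ?_
    simp only [hf, hS, Nat.cast_add, Nat.cast_one]
    rw [Real.sqrt_div' _ (by positivity), Real.sqrt_sq (norm_nonneg _),
      Real.sqrt_sq (by positivity)]
  have hroot : Tendsto Nat.sqrt atTop atTop :=
    tendsto_atTop.2 fun M => eventually_atTop.2 ⟨M * M, fun N hN => Nat.le_sqrt.2 hN⟩
  have hbound : Tendsto (fun N : ℕ => ‖S (Nat.sqrt N ^ 2)‖ / ((Nat.sqrt N : ℝ) ^ 2) +
      2 * (1 / (Nat.sqrt N : ℝ))) atTop (𝓝 0) := by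
    simpa using (hsq.comp hroot).add
      (((tendsto_one_div_atTop_nhds_zero_nat (𝕜 := ℝ)).comp hroot).const_mul 2)
  refine squeeze_zero_norm' ?_ hbound
  filter_upwards [eventually_ge_atTop 1] with N hN
  obtain ⟨d, hd, hd2⟩ : ∃ d, N = Nat.sqrt N ^ 2 + d ∧ d ≤ 2 * Nat.sqrt N :=
    ⟨N - Nat.sqrt N ^ 2, (Nat.add_sub_cancel' (Nat.sqrt_le' N)).symm, by
      have h1 := Nat.lt_succ_sqrt' N
      have h2 : (Nat.sqrt N + 1) ^ 2 = Nat.sqrt N ^ 2 + 2 * Nat.sqrt N + 1 := by ring
      rw [Nat.succ_eq_add_one] at h1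
      omega⟩
  have hM : (1 : ℝ) ≤ (Nat.sqrt N : ℝ) := by exact_mod_cast Nat.sqrt_pos.2 hN
  have hsplit : ‖S N‖ ≤ ‖S (Nat.sqrt N ^ 2)‖ + 2 * (Nat.sqrt N : ℝ) := by
    conv_lhs => rw [hd, hS]
    simp only
    rw [Finset.sum_range_add]
    refine (norm_add_le _ _).trans (add_le_add le_rfl
      ((norm_sum_le_of_le _ fun n _ => (norm_eAdd _).le).trans ?_))
    rw [Finset.sum_const, card_range, nsmul_one]
    exact_mod_cast hd2
  rw [Equidist.avg, card_range, norm_div, Complex.norm_natCast]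
  calc ‖S N‖ / (N : ℝ) ≤ (‖S (Nat.sqrt N ^ 2)‖ + 2 * (Nat.sqrt N : ℝ)) / (Nat.sqrt N : ℝ) ^ 2 := by
        refine div_le_div₀ (by positivity) hsplit (by positivity) ?_
        exact_mod_cast Nat.sqrt_le' N
    _ = _ := by field_simp

/-- Countably many intervals. -/
theorem ae_of_cover {ι : Type*} [Countable ι] {s : ι → Set ℝ} {U : Set ℝ} {p : ℝ → Prop}
    (hU : U ⊆ ⋃ i, s i) (h : ∀ i, ∀ᵐ x ∂volume.restrict (s i), p x) :
    ∀ᵐ x ∂volume.restrict U, p x :=
  ae_mono (Measure.restrict_mono hU le_rfl) ((ae_restrict_iUnion_iff s p).2 h)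

/-- The means for all frequencies give equidistribution. -/
theorem intervalMean_of_expMean {x : ℕ → ℝ}
    (h : ∀ k : ℤ, k ≠ 0 → Tendsto (fun N => Equidist.avg (range N) fun n => eAdd (k * x n))
      atTop (𝓝 0)) {a b : ℝ} (ha : 0 ≤ a) (hab : a ≤ b) (hb : b ≤ 1) :
    Tendsto (fun N : ℕ =>
      (#((range N).filter fun n => Int.fract (x n) ∈ Set.Ico a b) : ℝ) / N) atTop (𝓝 (b - a)) := by
  classical
  have h' := Equidist.ExpMeanZero.intervalMean (s := range) (x := x)
    (by simp only [card_range]; exact tendsto_id) h a b ha hab hb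
  simpa [card_range] using h'

end FA.MetricEquidist

end
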