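import Fermat.Agent.MetricEquidistribution.Basic
import Mathlib.MeasureTheory.Integral.IntervalIntegral.FundThmCalculus
import Mathlib.Analysis.Calculus.Deriv.Inv
import Mathlib.Analysis.SpecificLimits.Normed

/-!
# Koksma's metric theorem

`λ θ ^ n` is equidistributed modulo one for almost every `θ > 1`.
-/

set_option autoImplicit false

noncomputable section

open Finset Filter Topology MeasureTheory
open FA.ThreePrimes (eAdd norm_eAdd eAdd_zero)

namespace FA.MetricEquidist

theorem hasDerivAt_eAdd_comp {g : ℝ → ℝ} {g' x : ℝ} (hg : HasDerivAt g g' x) :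
    HasDerivAt (fun t => eAdd (g t)) ((2 * Real.pi * g' : ℂ) * Complex.I * eAdd (g x)) x := by
  have h1 : HasDerivAt (fun t => ((2 * Real.pi * g t : ℝ) : ℂ) * Complex.I)
      (((2 * Real.pi * g' : ℝ) : ℂ) * Complex.I) x :=
    ((hg.const_mul _).ofReal_comp).mul_const _
  refine h1.cexp.congr_deriv ?_
  rw [eAdd]
  push_cast
  ring

/-- The first derivative test. -/
theorem norm_integral_eAdd_le {p q r : ℝ → ℝ} {a b c : ℝ} (hab : a ≤ b) (hc : c ≠ 0)
    (hp : ∀ x ∈ Set.Icc a b, HasDerivAt p (q x) x)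
    (hq : ∀ x ∈ Set.Icc a b, HasDerivAt q (r x) x)
    (hr : ContinuousOn r (Set.Icc a b)) (hqpos : ∀ x ∈ Set.Icc a b, 0 < q x)
    (hrnn : ∀ x ∈ Set.Icc a b, 0 ≤ r x) :
    ‖∫ x in a..b, eAdd (c * p x)‖ ≤ 1 / (Real.pi * |c| * q a) := by
  have hI : Set.uIcc a b = Set.Icc a b := Set.uIcc_of_le hab
  have hpc : ContinuousOn p (Set.Icc a b) := fun x hx => (hp x hx).continuousAt.continuousWithinAt
  have hqc : ContinuousOn q (Set.Icc a b) := fun x hx => (hq x hx).continuousAt.continuousWithinAt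
  have hec : ContinuousOn (fun x => eAdd (c * p x)) (Set.Icc a b) :=
    continuous_eAdd.comp_continuousOn (continuousOn_const.mul hpc)
  set u : ℝ → ℝ := fun x => (q x)⁻¹ with hu
  set u' : ℝ → ℝ := fun x => -r x / q x ^ 2 with hu'
  have hud : ∀ x ∈ Set.Icc a b, HasDerivAt u (u' x) x := fun x hx =>
    (hq x hx).inv (hqpos x hx).ne'
  have hu'c : ContinuousOn u' (Set.Icc a b) :=
    hr.neg.div (hqc.pow 2) fun x hx => pow_ne_zero _ (hqpos x hx).ne'
  set K : ℂ := (2 * Real.pi * c : ℂ) * Complex.I with hK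
  have hG : ∀ x ∈ Set.Icc a b, HasDerivAt (fun t => eAdd (c * p t) * (u t : ℂ))
      (K * eAdd (c * p x) + eAdd (c * p x) * (u' x : ℂ)) x := fun x hx => by
    refine ((hasDerivAt_eAdd_comp ((hp x hx).const_mul c)).mul
      (hud x hx).ofReal_comp).congr_deriv ?_
    have : (q x : ℂ) ≠ 0 := Complex.ofReal_ne_zero.2 (hqpos x hx).ne'
    simp only [hu, hK]
    push_cast
    field_simp
  have hi1 : IntervalIntegrable (fun x => K * eAdd (c * p x)) volume a b :=
    (continuousOn_const.mul hec).intervalIntegrable_of_Icc hab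
  have hi2 : IntervalIntegrable (fun x => eAdd (c * p x) * (u' x : ℂ)) volume a b :=
    (hec.mul (Complex.continuous_ofReal.comp_continuousOn hu'c)).intervalIntegrable_of_Icc hab
  have hftc := intervalIntegral.integral_eq_sub_of_hasDerivAt
    (fun x hx => hG x (hI ▸ hx)) (hi1.add hi2)
  rw [intervalIntegral.integral_add hi1 hi2, intervalIntegral.integral_const_mul] at hftc
  have hud0 : ∫ x in a..b, u' x = u b - u a := intervalIntegral.integral_eq_sub_of_hasDerivAt
    (fun x hx => hud x (hI ▸ hx)) (hu'c.intervalIntegrable_of_Icc hab)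
  have hrest : ‖∫ x in a..b, eAdd (c * p x) * (u' x : ℂ)‖ ≤ u a - u b := by
    refine (intervalIntegral.norm_integral_le_integral_norm hab).trans ?_
    rw [intervalIntegral.integral_congr (g := fun x => -u' x) fun x hx => ?_,
      intervalIntegral.integral_neg, hud0, neg_sub]
    rw [hI] at hx
    simp only [norm_mul, norm_eAdd, one_mul, Complex.norm_real, Real.norm_eq_abs]
    refine abs_of_nonpos (div_nonpos_of_nonpos_of_nonneg ?_ (sq_nonneg _))
    linarith [hrnn x hx]
  have hua : 0 ≤ u a := inv_nonneg.2 (hqpos a (Set.left_mem_Icc.2 hab)).le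
  have hub : 0 ≤ u b := inv_nonneg.2 (hqpos b (Set.right_mem_Icc.2 hab)).le
  have hmain : ‖K * ∫ x in a..b, eAdd (c * p x)‖ ≤ 2 * u a := by
    rw [eq_sub_of_add_eq hftc]
    refine (norm_sub_le _ _).trans ((add_le_add (norm_sub_le _ _) hrest).trans ?_)
    simp only [norm_mul, norm_eAdd, one_mul, Complex.norm_real, Real.norm_eq_abs,
      abs_of_nonneg hua, abs_of_nonneg hub]
    linarith
  have hKn : ‖K‖ = 2 * Real.pi * |c| := by
    simp [hK, abs_of_pos Real.pi_pos]
  rw [norm_mul, hKn] at hmain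
  have hq0 := hqpos a (Set.left_mem_Icc.2 hab)
  have hπ : 0 < Real.pi * |c| := mul_pos Real.pi_pos (abs_pos.2 hc)
  rw [le_div_iff₀ (mul_pos hπ hq0)]
  simp only [hu] at hmain
  have := mul_le_mul_of_nonneg_right hmain hq0.le
  rw [mul_assoc 2 (q a)⁻¹, inv_mul_cancel₀ hq0.ne', mul_one] at this
  nlinarith

theorem integral_pow_sub_le {a b c : ℝ} (ha : 1 < a) (hab : a ≤ b) (hc : c ≠ 0) {m n : ℕ}
    (hmn : m < n) :
    ‖∫ x in a..b, eAdd (c * x ^ n - c * x ^ m)‖ ≤ 1 / (Real.pi * |c|) * a⁻¹ ^ (n - 1) := by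
  set q : ℝ → ℝ := fun x => n * x ^ (n - 1) - m * x ^ (m - 1) with hq
  have hmono : ∀ (i j : ℕ) (x : ℝ), 1 ≤ x → i ≤ j →
      (i : ℝ) * x ^ (i - 1) ≤ (j : ℝ) * x ^ (j - 1) := fun i j x hx hij =>
    mul_le_mul (by exact_mod_cast hij) (pow_le_pow_right₀ hx (by omega)) (by positivity)
      (Nat.cast_nonneg _)
  have hqge : ∀ x, 1 ≤ x → x ^ (n - 1) ≤ q x := fun x hx => by
    have h1 : (m : ℝ) + 1 ≤ n := by exact_mod_cast hmn
    have h2 : x ^ (m - 1) ≤ x ^ (n - 1) := pow_le_pow_right₀ hx (by omega)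
    have h3 : (0 : ℝ) ≤ x ^ (n - 1) := by positivity
    simp only [hq]
    nlinarith [(Nat.cast_nonneg m : (0 : ℝ) ≤ m)]
  set r : ℝ → ℝ := fun x => n * (((n - 1 : ℕ) : ℝ) * x ^ (n - 1 - 1)) -
    m * (((m - 1 : ℕ) : ℝ) * x ^ (m - 1 - 1)) with hr
  have e : ∀ x, c * x ^ n - c * x ^ m = c * (x ^ n - x ^ m) := fun x => by ring
  simp only [e]
  refine (norm_integral_eAdd_le (p := fun x => x ^ n - x ^ m) (q := q) (r := r) hab hc
    (fun x _ => (hasDerivAt_pow n x).sub (hasDerivAt_pow m x))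
    (fun x _ => ((hasDerivAt_pow (n - 1) x).const_mul _).sub
      ((hasDerivAt_pow (m - 1) x).const_mul _))
    (by fun_prop) (fun x hx => lt_of_lt_of_le (pow_pos (by linarith [hx.1]) _)
      (hqge x (by linarith [hx.1]))) (fun x hx => ?_)).trans ?_
  · simp only [hr, sub_nonneg]
    exact mul_le_mul (by exact_mod_cast hmn.le) (hmono (m - 1) (n - 1) x (by linarith [hx.1])
      (by omega)) (mul_nonneg (Nat.cast_nonneg _) (pow_nonneg (by linarith [hx.1]) _))
      (Nat.cast_nonneg _)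
  · rw [inv_pow, ← one_div (a ^ (n - 1)), div_mul_div_comm, one_mul]
    have h1 := hqge a ha.le
    have hπ : 0 < Real.pi * |c| := mul_pos Real.pi_pos (abs_pos.2 hc)
    gcongr

theorem sum_integral_le {a b c : ℝ} (ha : 1 < a) (hab : a ≤ b) (hc : c ≠ 0) :
    ∃ C : ℝ, ∀ N : ℕ, ∑ m ∈ range N, ∑ n ∈ range N,
      ‖∫ x in a..b, eAdd (c * x ^ m - c * x ^ n)‖ ≤ C * N := by
  set K := 1 / (Real.pi * |c|) with hK
  have hK0 : 0 ≤ K := by positivity
  set r := a⁻¹ with hr
  have hr0 : 0 ≤ r := inv_nonneg.2 (by linarith)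
  have hr1 : r < 1 := inv_lt_one_of_one_lt₀ ha
  have hs : Summable fun n : ℕ => (n : ℝ) * r ^ (n - 1) := by
    refine (summable_nat_add_iff 1).1 ?_
    have h1 : Summable fun n : ℕ => (n : ℝ) * r ^ n := by
      simpa using summable_pow_mul_geometric_of_norm_lt_one 1
        (by rwa [Real.norm_eq_abs, abs_of_nonneg hr0])
    simpa [add_mul] using h1.add (summable_geometric_of_lt_one hr0 hr1)
  set G := ∑' n : ℕ, r ^ n with hG
  have hgeo := summable_geometric_of_lt_one hr0 hr1
  refine ⟨(b - a) + K * (∑' n : ℕ, (n : ℝ) * r ^ (n - 1)) + K * (G + 1), fun N => ?_⟩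
  refine (Finset.sum_le_card_nsmul (range N) _
    ((b - a) + K * (∑' n : ℕ, (n : ℝ) * r ^ (n - 1)) + K * (G + 1)) fun m _ => ?_).trans_eq
      (by rw [card_range, nsmul_eq_mul, mul_comm])
  have hterm : ∀ n, ‖∫ x in a..b, eAdd (c * x ^ m - c * x ^ n)‖ ≤
      (if n = m then b - a else 0) + (if n < m then K * r ^ (m - 1) else 0) +
        K * r ^ (n - 1) := fun n => by
    have hnn : 0 ≤ K * r ^ (n - 1) := by positivity
    rcases lt_trichotomy n m with h | rfl | h
    · rw [if_neg h.ne, if_pos h, zero_add]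
      exact (integral_pow_sub_le ha hab hc h).trans (le_add_of_nonneg_right hnn)
    · simpa [← Complex.ofReal_sub, Complex.norm_real, abs_of_nonneg (sub_nonneg.2 hab)] using hnn
    · rw [if_neg h.ne', if_neg h.not_gt, zero_add, zero_add]
      have e : ∀ x : ℝ, eAdd (c * x ^ m - c * x ^ n) =
          eAdd ((-c) * x ^ n - (-c) * x ^ m) := fun x => by congr 1; ring
      simp only [e]
      simpa [hK, hr] using integral_pow_sub_le ha hab (neg_ne_zero.2 hc) h
  refine (Finset.sum_le_sum fun n _ => hterm n).trans ?_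
  rw [sum_add_distrib, sum_add_distrib]
  refine add_le_add (add_le_add ?_ ?_) ?_
  · rw [sum_ite_eq']
    (split_ifs; linarith)
  · rw [← sum_filter, sum_const, nsmul_eq_mul, mul_left_comm]
    refine mul_le_mul_of_nonneg_left (le_trans ?_
      (hs.le_tsum m fun j _ => by positivity)) hK0
    refine mul_le_mul_of_nonneg_right ?_ (pow_nonneg hr0 _)
    have : #((range N).filter fun n => n < m) ≤ #(range m) :=
      card_le_card fun j hj => mem_range.2 (mem_filter.1 hj).2
    rw [card_range] at this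
    exact_mod_cast this
  · rw [← mul_sum]
    refine mul_le_mul_of_nonneg_left ?_ hK0
    cases N with
    | zero =>
      have : 0 ≤ G := tsum_nonneg fun n => by positivity
      simp only [sum_range_zero]
      linarith
    | succ N =>
      rw [sum_range_succ']
      simp only [Nat.add_sub_cancel, Nat.zero_sub, pow_zero]
      exact add_le_add_left (hgeo.sum_le_tsum _ fun j _ => by positivity) _

/-- **Koksma's theorem.** -/
theorem koksma_metric {lam : ℝ} (hlam : lam ≠ 0) :
    ∀ᵐ θ : ℝ, 1 < θ → ∀ u v : ℝ, 0 ≤ u → u ≤ v → v ≤ 1 → Tendsto (fun N : ℕ =>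
      (#((range N).filter fun n : ℕ => Int.fract (lam * θ ^ n) ∈ Set.Ico u v) : ℝ) / N) atTop
        (𝓝 (v - u)) := by
  classical
  have hmean : ∀ h : ℤ, ∀ᵐ θ : ℝ, 1 < θ → h ≠ 0 →
      Tendsto (fun N => Equidist.avg (range N) fun n => eAdd (h * (lam * θ ^ n))) atTop
        (𝓝 0) := by
    intro h
    by_cases hh : h = 0
    · exact Eventually.of_forall fun x _ hne => absurd hh hne
    refine (ae_restrict_iff' measurableSet_Ioi).1 ?_
    refine ae_of_cover (s := fun j : ℕ => Set.Ioc (1 + 1 / ((j : ℝ) + 1)) ((j : ℝ) + 3)) ?_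
      fun j => ?_
    · intro x hx
      obtain ⟨j, hj⟩ := exists_nat_gt (max (1 / (x - 1)) x)
      have h1 : 0 < x - 1 := by simpa using hx
      have h2 := (le_max_left _ _).trans_lt hj
      rw [div_lt_iff₀ h1] at h2
      refine Set.mem_iUnion.2 ⟨j, ?_, by linarith [(le_max_right _ _).trans_lt hj]⟩
      have h3 : 1 / ((j : ℝ) + 1) < x - 1 := by
        rw [div_lt_iff₀ (by positivity)]
        nlinarith
      linarith
    have hab : 1 + 1 / ((j : ℝ) + 1) ≤ (j : ℝ) + 3 := by
      have : 1 / ((j : ℝ) + 1) ≤ 1 := by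
        rw [div_le_one₀ (by positivity)]
        simp
      linarith [(Nat.cast_nonneg j : (0 : ℝ) ≤ j)]
    obtain ⟨C, hC⟩ := sum_integral_le (lt_add_of_pos_right 1 (by positivity)) hab
      (mul_ne_zero (Int.cast_ne_zero.2 hh) hlam)
    have key := ae_tendsto_mean (φ := fun n x => (h : ℝ) * (lam * x ^ n))
      (fun n => by fun_prop) hab (C := C) fun N => by simpa [mul_assoc] using hC N
    filter_upwards [key] with x hx using fun _ => hx
  filter_upwards [ae_all_iff.2 hmean] with θ hx hθ u v hu huv hv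
  exact intervalMean_of_expMean (fun k hk => hx k hθ hk) hu huv hv

end FA.MetricEquidist

end
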