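import Fermat.Agent.MetricEquidistribution.Basic
import Mathlib.Analysis.SpecialFunctions.Integrals.Basic

/-!
# Weyl's metric theorem

For distinct integers `a n` the multiples `a n x` are equidistributed for almost every `x`.
-/

set_option autoImplicit false

noncomputable section

open Finset Filter Topology MeasureTheory
open FA.ThreePrimes (eAdd norm_eAdd eAdd_zero eAdd_add eAdd_intCast)

namespace FA.MetricEquidist

theorem integral_eAdd_int {m : ℤ} (hm : m ≠ 0) (k : ℤ) :
    ∫ x in (k : ℝ)..((k : ℝ) + 1), eAdd (m * x) = 0 := by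
  have hc : (2 * Real.pi * m : ℂ) * Complex.I ≠ 0 := by
    simp [Real.pi_ne_zero, hm]
  have e : ∀ x : ℝ,
      eAdd (m * x) = Complex.exp ((2 * Real.pi * m : ℂ) * Complex.I * x) := fun x => by
    rw [eAdd]
    congr 1
    push_cast
    ring
  simp only [e]
  rw [integral_exp_mul_complex hc, ← e, ← e, mul_add, mul_one, eAdd_add, eAdd_intCast, mul_one,
    sub_self, zero_div]

/-- **Weyl's metric theorem.** -/
theorem weyl_metric {a : ℕ → ℤ} (ha : Function.Injective a) :
    ∀ᵐ x : ℝ, ∀ u v : ℝ, 0 ≤ u → u ≤ v → v ≤ 1 → Tendsto (fun N : ℕ =>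
      (#((range N).filter fun n => Int.fract ((a n : ℝ) * x) ∈ Set.Ico u v) : ℝ) / N) atTop
        (𝓝 (v - u)) := by
  classical
  have hmean : ∀ h : ℤ, ∀ᵐ x : ℝ, h ≠ 0 →
      Tendsto (fun N => Equidist.avg (range N) fun n => eAdd (h * ((a n : ℝ) * x))) atTop
        (𝓝 0) := by
    intro h
    by_cases hh : h = 0
    · exact Eventually.of_forall fun x hne => absurd hh hne
    rw [← Measure.restrict_univ (μ := (volume : Measure ℝ))]
    refine ae_of_cover (s := fun k : ℤ => Set.Ioc (k : ℝ) ((k : ℝ) + 1)) ?_ fun k => ?_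
    · exact fun x _ => Set.mem_iUnion.2 ⟨⌈x⌉ - 1, by
        push_cast; linarith [Int.ceil_lt_add_one x], by push_cast; linarith [Int.le_ceil x]⟩
    have key := ae_tendsto_mean (φ := fun n x => (h : ℝ) * ((a n : ℝ) * x))
      (fun n => by fun_prop) (le_add_of_nonneg_right zero_le_one : (k : ℝ) ≤ (k : ℝ) + 1)
      (C := 1) fun N => by
        refine (Finset.sum_le_sum fun m hm => ?_).trans_eq (b := ∑ _m ∈ range N, (1 : ℝ))
          (by simp)
        rw [Finset.sum_eq_single m]
        · simp
        · intro n _ hne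
          have e : ∀ x : ℝ, (h : ℝ) * ((a m : ℝ) * x) - (h : ℝ) * ((a n : ℝ) * x) =
              ((h * (a m - a n) : ℤ) : ℝ) * x := fun x => by push_cast; ring
          simp only [e]
          rw [integral_eAdd_int (mul_ne_zero hh (sub_ne_zero.2 (ha.ne hne.symm))) k, norm_zero]
        · exact fun hm' => absurd hm hm'
    filter_upwards [key] with x hx using fun _ => hx
  filter_upwards [ae_all_iff.2 hmean] with x hx u v hu huv hv
  exact intervalMean_of_expMean hx hu huv hv

end FA.MetricEquidist

end
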